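import Mathlib

/-!
# S43 / Cnt / Inter : the exact counting lemma for the tower  (Mathlib only)

`H` a finite abelian group, `dl` (`= δ`), `Sg` (`= Σ`), `nm` (`= Nm_Δ`) endomorphisms of `H`; `w = dl - 1`.
`Sg` commutes with `dl` and `nm`; `dl nm = nm = nm dl`; `ker nm ⊆ w H`;
(I1') `(Sg - 1) x ∈ w H → x ∈ (Sg - 1) H + w H`      (`ker N ⊆ N V` on `V = H / w H`);
`Kc, K0 ≤ H` with `(Sg - 1) H ≤ Kc`, `(Sg - dl) H ≤ K0`, `#H ≤ #(H/Kc)²`, `#H ≤ #(H/K0)²`.

THEN  `Kc ⊓ K0 = nm (Sg - 1) H`,  `Kc = (Sg - 1) H`,  `K0 = (Sg - dl) H`.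

Corollaries: `(Sg - 1)(Sg - dl) H ⊆ nm H`; every `s'` with `(s' - 1) H ≤ Kc`, `(s' - dl) H ≤ K0` satisfies `(s' - Sg) H ⊆ nm H`.
-/

set_option autoImplicit false

namespace Fermat.Agent.S43.Cnt

variable {H : Type*} [AddCommGroup H]

theorem index_inf_mul_index_sup (A B : AddSubgroup H) :
    (A ⊓ B).index * (A ⊔ B).index = A.index * B.index := by
  have h1 : (A ⊓ B).relIndex A * A.index = (A ⊓ B).index :=
    AddSubgroup.relIndex_mul_index inf_le_left
  have h2 : B.relIndex (A ⊔ B) * (A ⊔ B).index = B.index :=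
    AddSubgroup.relIndex_mul_index le_sup_right
  have h3 : (A ⊓ B).relIndex A = B.relIndex A := by
    rw [inf_comm]; exact AddSubgroup.inf_relIndex_right B A
  have h4 : B.relIndex (A ⊔ B) = B.relIndex A := AddSubgroup.relIndex_sup_right A B
  rw [← h1, ← h2, h3, h4]
  ring

theorem le_of_le_of_index_le [Finite H] {A B : AddSubgroup H} (h : A ≤ B) (hi : A.index ≤ B.index) :
    B ≤ A := by
  have h1 : A.relIndex B * B.index = A.index := AddSubgroup.relIndex_mul_index h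
  have hB : B.index ≠ 0 := AddSubgroup.index_ne_zero_of_finite
  have hA : A.index ≠ 0 := AddSubgroup.index_ne_zero_of_finite
  have h2 : A.relIndex B = 1 := by
    have h3 : A.relIndex B ≠ 0 := by
      intro h0
      rw [h0, zero_mul] at h1
      exact hA h1.symm
    have h4 : A.relIndex B * B.index ≤ 1 * B.index := by rw [h1, one_mul]; exact hi
    have h5 := Nat.le_of_mul_le_mul_right h4 (Nat.pos_of_ne_zero hB)
    omega
  exact AddSubgroup.relIndex_eq_one.mp h2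

theorem index_le_of_le [Finite H] {A B : AddSubgroup H} (h : A ≤ B) : B.index ≤ A.index :=
  Nat.le_of_dvd (Nat.pos_of_ne_zero AddSubgroup.index_ne_zero_of_finite)
    (AddSubgroup.index_dvd_of_le h)

section Main

variable [Finite H] (dl Sg nm : H →+ H)

/-- the numerical core: `[H : T] [H : P'] ≤ #H`. -/
theorem index_mul_index_le
    (hnd : ∀ x, nm (dl x) = nm x)
    (h2 : ∀ x, nm x = 0 → ∃ y, x = dl y - y)
    (hI1 : ∀ x, (∃ y, Sg x - x = dl y - y) → ∃ y z, x = (Sg y - y) + (dl z - z)) :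
    (((Sg - AddMonoidHom.id H).range).map nm).index
      * ((Sg - AddMonoidHom.id H).range ⊔ (dl - AddMonoidHom.id H).range).index ≤ Nat.card H := by
  set A1 : AddSubgroup H := (Sg - AddMonoidHom.id H).range with hA1
  set Wd : AddSubgroup H := (dl - AddMonoidHom.id H).range with hWd
  set T : AddSubgroup H := A1.map nm with hT
  have hker : nm.ker = Wd := by
    apply le_antisymm
    · intro x hx
      obtain ⟨y, rfl⟩ := h2 x hx
      exact ⟨y, rfl⟩
    · rintro _ ⟨y, rfl⟩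
      show nm (dl y - y) = 0
      rw [map_sub, hnd, sub_self]
  have p1 : T.comap nm = A1 ⊔ Wd := by rw [hT, AddSubgroup.comap_map_eq, hker]
  have p2 : (A1 ⊔ Wd).index = T.relIndex nm.range := by rw [← p1, AddSubgroup.index_comap]
  have p3 : T ≤ nm.range := by
    rintro _ ⟨y, _, rfl⟩
    exact ⟨y, rfl⟩
  have p4 : T.relIndex nm.range * nm.range.index = T.index := AddSubgroup.relIndex_mul_index p3
  have p5 : (Wd.comap (Sg - AddMonoidHom.id H)).index = Wd.relIndex A1 :=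
    AddSubgroup.index_comap Wd (Sg - AddMonoidHom.id H)
  have p6 : Wd.relIndex (A1 ⊔ Wd) = Wd.relIndex A1 := AddSubgroup.relIndex_sup_right A1 Wd
  have p7 : Wd.relIndex (A1 ⊔ Wd) * (A1 ⊔ Wd).index = Wd.index :=
    AddSubgroup.relIndex_mul_index le_sup_right
  have p8 : Wd.comap (Sg - AddMonoidHom.id H) ≤ A1 ⊔ Wd := by
    intro x hx
    obtain ⟨y, hy⟩ := hx
    obtain ⟨y', z, rfl⟩ := hI1 x ⟨y, hy.symm⟩
    exact add_mem (AddSubgroup.mem_sup_left ⟨y', rfl⟩) (AddSubgroup.mem_sup_right ⟨z, rfl⟩)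
  have p8' : (A1 ⊔ Wd).index ≤ Wd.relIndex A1 := by
    rw [← p5]; exact index_le_of_le p8
  have p9 : Wd.index = Nat.card nm.range := by rw [← hker]; exact AddSubgroup.index_ker nm
  have p10 : nm.range.index * Nat.card nm.range = Nat.card H := AddSubgroup.index_mul_card _
  calc T.index * (A1 ⊔ Wd).index
      = (A1 ⊔ Wd).index * (A1 ⊔ Wd).index * nm.range.index := by rw [← p4, ← p2]; ring
    _ ≤ Wd.relIndex A1 * (A1 ⊔ Wd).index * nm.range.index :=
        Nat.mul_le_mul_right _ (Nat.mul_le_mul_right _ p8')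
    _ = Nat.card H := by rw [← p6, p7, p9, mul_comm, p10]

theorem le_mul_of_le_sq {h a b : ℕ} (ha : h ≤ a ^ 2) (hb : h ≤ b ^ 2) : h ≤ a * b := by
  by_contra hcon
  push Not at hcon
  have h1 : (a * b) * (a * b) < h * h := Nat.mul_self_lt_mul_self hcon
  have h2 : h * h ≤ a ^ 2 * b ^ 2 := Nat.mul_le_mul ha hb
  nlinarith

/-- **The exact counting lemma.** -/
theorem inter_main
    (hSn : ∀ x, Sg (nm x) = nm (Sg x))
    (hdn : ∀ x, dl (nm x) = nm x) (hnd : ∀ x, nm (dl x) = nm x)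
    (h2 : ∀ x, nm x = 0 → ∃ y, x = dl y - y)
    (hI1 : ∀ x, (∃ y, Sg x - x = dl y - y) → ∃ y z, x = (Sg y - y) + (dl z - z))
    (Kc K0 : AddSubgroup H) (hKc : ∀ x, Sg x - x ∈ Kc) (hK0 : ∀ x, Sg x - dl x ∈ K0)
    (c1 : Nat.card H ≤ Nat.card (H ⧸ Kc) ^ 2) (c2 : Nat.card H ≤ Nat.card (H ⧸ K0) ^ 2) :
    (∀ x ∈ Kc, x ∈ K0 → ∃ y, x = nm (Sg y - y)) ∧ (∀ x ∈ Kc, ∃ y, x = Sg y - y) ∧
      (∀ x ∈ K0, ∃ y, x = Sg y - dl y) := by
  set A1 : AddSubgroup H := (Sg - AddMonoidHom.id H).range with hA1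
  set B1 : AddSubgroup H := (Sg - dl).range with hB1
  set Wd : AddSubgroup H := (dl - AddMonoidHom.id H).range with hWd
  set T : AddSubgroup H := A1.map nm with hT
  have key : T.index * (A1 ⊔ Wd).index ≤ Nat.card H := index_mul_index_le dl Sg nm hnd h2 hI1
  have hA1K : A1 ≤ Kc := by rintro _ ⟨y, rfl⟩; exact hKc y
  have hB1K : B1 ≤ K0 := by rintro _ ⟨y, rfl⟩; exact hK0 y
  have hTA : T ≤ A1 := by
    rintro _ ⟨_, ⟨y, rfl⟩, rfl⟩
    refine ⟨nm y, ?_⟩
    show Sg (nm y) - nm y = nm (Sg y - y)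
    rw [hSn, map_sub]
  have hTB : T ≤ B1 := by
    rintro _ ⟨_, ⟨y, rfl⟩, rfl⟩
    refine ⟨nm y, ?_⟩
    show Sg (nm y) - dl (nm y) = nm (Sg y - y)
    rw [hSn, hdn, map_sub]
  have hWAB : Wd ≤ A1 ⊔ B1 := by
    rintro _ ⟨y, rfl⟩
    have e : (dl - AddMonoidHom.id H) y = (Sg y - y) - (Sg y - dl y) := by
      show dl y - y = _
      abel
    rw [e]
    exact sub_mem (AddSubgroup.mem_sup_left ⟨y, rfl⟩) (AddSubgroup.mem_sup_right ⟨y, rfl⟩)
  have hPAB : A1 ⊔ Wd ≤ A1 ⊔ B1 := sup_le le_sup_left hWAB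
  have c1' : Nat.card H ≤ Kc.index ^ 2 := c1
  have c2' : Nat.card H ≤ K0.index ^ 2 := c2
  have hle : Nat.card H ≤ Kc.index * K0.index := le_mul_of_le_sq c1' c2'
  have iA : Kc.index ≤ A1.index := index_le_of_le hA1K
  have iB : K0.index ≤ B1.index := index_le_of_le hB1K
  -- the pair `(A1, B1)`
  have e1 : (A1 ⊓ B1).index * (A1 ⊔ B1).index = A1.index * B1.index := index_inf_mul_index_sup A1 B1
  have u1 : (A1 ⊓ B1).index ≤ T.index := index_le_of_le (le_inf hTA hTB)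
  have u2 : (A1 ⊔ B1).index ≤ (A1 ⊔ Wd).index := index_le_of_le hPAB
  have hAB : A1.index * B1.index ≤ Nat.card H := by
    rw [← e1]; exact (Nat.mul_le_mul u1 u2).trans key
  have hKpos : 0 < Kc.index := Nat.pos_of_ne_zero AddSubgroup.index_ne_zero_of_finite
  have h0pos : 0 < K0.index := Nat.pos_of_ne_zero AddSubgroup.index_ne_zero_of_finite
  have hApos : 0 < A1.index := Nat.pos_of_ne_zero AddSubgroup.index_ne_zero_of_finite
  have hBpos : 0 < B1.index := Nat.pos_of_ne_zero AddSubgroup.index_ne_zero_of_finite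
  have hchain : A1.index * B1.index ≤ Kc.index * K0.index := hAB.trans hle
  have iA' : A1.index ≤ Kc.index := by
    by_contra hcon
    push Not at hcon
    have : Kc.index * K0.index < A1.index * B1.index :=
      calc Kc.index * K0.index < A1.index * K0.index := Nat.mul_lt_mul_of_pos_right hcon h0pos
        _ ≤ A1.index * B1.index := Nat.mul_le_mul_left _ iB
    omega
  have iB' : B1.index ≤ K0.index := by
    by_contra hcon
    push Not at hcon
    have : Kc.index * K0.index < A1.index * B1.index :=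
      calc Kc.index * K0.index < Kc.index * B1.index := Nat.mul_lt_mul_of_pos_left hcon hKpos
        _ ≤ A1.index * B1.index := Nat.mul_le_mul_right _ iA
    omega
  have hKA : Kc ≤ A1 := le_of_le_of_index_le hA1K iA'
  have hKB : K0 ≤ B1 := le_of_le_of_index_le hB1K iB'
  -- the intersection
  have hTI : T ≤ A1 ⊓ B1 := le_inf hTA hTB
  have hUpos : 0 < (A1 ⊔ B1).index := Nat.pos_of_ne_zero AddSubgroup.index_ne_zero_of_finite
  have hidx : T.index ≤ (A1 ⊓ B1).index := by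
    have h3 : T.index * (A1 ⊔ B1).index ≤ (A1 ⊓ B1).index * (A1 ⊔ B1).index := by
      rw [e1]
      calc T.index * (A1 ⊔ B1).index ≤ T.index * (A1 ⊔ Wd).index := Nat.mul_le_mul_left _ u2
        _ ≤ Nat.card H := key
        _ ≤ Kc.index * K0.index := hle
        _ ≤ A1.index * B1.index := Nat.mul_le_mul iA iB
    exact Nat.le_of_mul_le_mul_right h3 hUpos
  have hIT : A1 ⊓ B1 ≤ T := le_of_le_of_index_le hTI hidx
  refine ⟨fun x hx hx' => ?_, fun x hx => ?_, fun x hx => ?_⟩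
  · obtain ⟨_, ⟨y, rfl⟩, rfl⟩ := hIT ⟨hKA hx, hKB hx'⟩
    exact ⟨y, rfl⟩
  · obtain ⟨y, rfl⟩ := hKA hx
    exact ⟨y, rfl⟩
  · obtain ⟨y, rfl⟩ := hKB hx
    exact ⟨y, rfl⟩

/-- (H3) modulo `Nm`. -/
theorem h3_mod_nm
    (hSd : ∀ x, Sg (dl x) = dl (Sg x)) (hSn : ∀ x, Sg (nm x) = nm (Sg x))
    (hdn : ∀ x, dl (nm x) = nm x) (hnd : ∀ x, nm (dl x) = nm x)
    (h2 : ∀ x, nm x = 0 → ∃ y, x = dl y - y)
    (hI1 : ∀ x, (∃ y, Sg x - x = dl y - y) → ∃ y z, x = (Sg y - y) + (dl z - z))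
    (Kc K0 : AddSubgroup H) (hKc : ∀ x, Sg x - x ∈ Kc) (hK0 : ∀ x, Sg x - dl x ∈ K0)
    (c1 : Nat.card H ≤ Nat.card (H ⧸ Kc) ^ 2) (c2 : Nat.card H ≤ Nat.card (H ⧸ K0) ^ 2) (x : H) :
    ∃ y, Sg (Sg x - dl x) - (Sg x - dl x) = nm (Sg y - y) := by
  refine (inter_main dl Sg nm hSn hdn hnd h2 hI1 Kc K0 hKc hK0 c1 c2).1 _ (hKc _) ?_
  have e : Sg (Sg x - dl x) - (Sg x - dl x) = Sg (Sg x - x) - dl (Sg x - x) := by
    rw [map_sub, map_sub, map_sub, hSd]
    abel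
  rw [e]
  exact hK0 _

/-- (COMM): two "inertia elements" with the same diamond agree modulo `Nm`. -/
theorem comm_mod_nm
    (hSn : ∀ x, Sg (nm x) = nm (Sg x))
    (hdn : ∀ x, dl (nm x) = nm x) (hnd : ∀ x, nm (dl x) = nm x)
    (h2 : ∀ x, nm x = 0 → ∃ y, x = dl y - y)
    (hI1 : ∀ x, (∃ y, Sg x - x = dl y - y) → ∃ y z, x = (Sg y - y) + (dl z - z))
    (Kc K0 : AddSubgroup H) (hKc : ∀ x, Sg x - x ∈ Kc) (hK0 : ∀ x, Sg x - dl x ∈ K0)
    (c1 : Nat.card H ≤ Nat.card (H ⧸ Kc) ^ 2) (c2 : Nat.card H ≤ Nat.card (H ⧸ K0) ^ 2)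
    (s' : H → H) (hs : ∀ x, s' x - x ∈ Kc) (hs0 : ∀ x, s' x - dl x ∈ K0) (x : H) :
    ∃ y, s' x - Sg x = nm (Sg y - y) := by
  refine (inter_main dl Sg nm hSn hdn hnd h2 hI1 Kc K0 hKc hK0 c1 c2).1 _ ?_ ?_
  · have e : s' x - Sg x = (s' x - x) - (Sg x - x) := by abel
    rw [e]
    exact sub_mem (hs x) (hKc x)
  · have e : s' x - Sg x = (s' x - dl x) - (Sg x - dl x) := by abel
    rw [e]
    exact sub_mem (hs0 x) (hK0 x)

end Main

end Fermat.Agent.S43.Cnt
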