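import Fermat.Agent.S43.Cnt.Inter
import Fermat.Agent.S43.Soc.C123

/-!
# S43 / Cnt / Main : COUNT, packaged  (Mathlib only)

`H` (the `θ`-part of the Kummer module of the tower), `V` (level `X₀`), `dl` the generator of the diamond group (order `p^a`),
`kap : H → V` (`H / (dl - 1) H ≃ V`), `pull : V → H` (`pull ∘ kap = Nm`), `N = Σ - 1` on `V`, `Sg = Σ` on `H`, `io` the Atkin-Lehner
operator on `H`, `Kc ≤ H` (think `K_∞ ∩ H`).

From the package `Pkg` [(H1) = `kap`, `pull`; (DIV), (I1) at exponent `p`, `N² = 0` on `V`; (S1) `(Σ - 1) H ≤ Kc`; (d) `pull v ∈ Kc → N v = 0`;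
(R2) the relations of `io`]:

* `Pkg.type`   : `(Σ - 1)(Σ - dl) x ∈ Nm (Σ - 1) H`;
* `Pkg.comm`   : every `s'` with `(s' - 1) H ≤ Kc` and `io s' = dl⁻¹ s' io` satisfies `s' x - Σ x ∈ Nm (Σ - 1) H`;
* `Pkg.w_type`, `Pkg.w_comm` : the same after applying `dl - 1` (`= 0`);
* `Pkg.Kc_eq`  : `Kc = (Σ - 1) H`.
-/

set_option autoImplicit false
set_option linter.style.haveILetI false

namespace Fermat.Agent.S43.Cnt

open Fermat.Agent.S43.Soc

/-- `ker N = im N` from `N² = 0` and (c3). -/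
theorem exists_of_ker {V : Type*} [AddCommGroup V] [Finite V] (N : V →+ V) (hNN : ∀ v, N (N v) = 0)
    (c3 : Nat.card V ≤ Nat.card (V ⧸ N.ker) ^ 2) (v : V) (hv : N v = 0) : ∃ y, v = N y := by
  have h1 : Nat.card (V ⧸ N.ker) = Nat.card N.range :=
    Nat.card_congr (QuotientAddGroup.quotientKerEquivRange N).toEquiv
  have h2 := AddSubgroup.card_eq_card_quotient_mul_card_addSubgroup N.ker
  have hle : N.range ≤ N.ker := by
    rintro _ ⟨y, rfl⟩
    exact hNN y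
  have hpos : 0 < Nat.card N.range := Nat.card_pos
  have h3 : Nat.card N.ker ≤ Nat.card N.range := by
    rw [h2, h1, sq] at c3
    exact Nat.le_of_mul_le_mul_left c3 hpos
  have h4 : N.range = N.ker := AddSubgroup.eq_of_le_of_card_ge hle h3
  have h5 : v ∈ N.range := by
    rw [h4]
    exact hv
  obtain ⟨y, hy⟩ := h5
  exact ⟨y, hy.symm⟩

variable {H V : Type*} [AddCommGroup H] [AddCommGroup V]

/-- an additive map as an element of the ring `AddMonoid.End H`. -/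
def toE (f : H →+ H) : AddMonoid.End H := f

theorem toE_apply (f : H →+ H) (x : H) : toE f x = f x := rfl

/-- the package. -/
structure Pkg (p a K : ℕ) (dl dli Sg : H →+ H) (io : H ≃+ H) (kap : H →+ V) (pull : V →+ H)
    (N : V →+ V) (Kc : AddSubgroup H) : Prop where
  hp : p.Prime
  hp2 : p ≠ 2
  hK0 : 0 < K
  hK : ∀ x : H, p ^ K • x = 0
  hdl : (toE dl) ^ (p ^ a) = 1
  dli_dl : ∀ x, dli (dl x) = x
  dl_dli : ∀ x, dl (dli x) = x
  kap_surj : Function.Surjective kap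
  kap_ker : ∀ h, kap h = 0 → ∃ h', h = dl h' - h'
  pull_kap : ∀ h, pull (kap h) = Nm (toE dl) (p ^ a) h
  pull_inj : Function.Injective pull
  DIV : ∀ P : V, p • P = 0 → ∃ y, P = p ^ (K - 1) • y
  I1 : ∀ P : V, p • P = 0 → N P = 0 → ∃ y, p • y = 0 ∧ P = N y
  NN : ∀ v, N (N v) = 0
  Sg_dl : ∀ x, Sg (dl x) = dl (Sg x)
  kap_Sg : ∀ x, kap (Sg x) = kap x + N (kap x)
  io_Sg : ∀ x, io (Sg x) = dli (Sg (io x))
  io_dl : ∀ x, io (dl x) = dli (io x)
  Kc_dl : ∀ x ∈ Kc, dl x ∈ Kc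
  Kc_dli : ∀ x ∈ Kc, dli x ∈ Kc
  Kc_Sg : ∀ x, Sg x - x ∈ Kc
  d : ∀ v, pull v ∈ Kc → N v = 0

namespace Pkg

variable {p a K : ℕ} {dl dli Sg : H →+ H} {io : H ≃+ H} {kap : H →+ V} {pull : V →+ H}
  {N : V →+ V} {Kc : AddSubgroup H}

/-- the norm as an additive map. -/
def nm (_ : Pkg p a K dl dli Sg io kap pull N Kc) : H →+ H :=
  Nm (toE dl) (p ^ a)

variable (P : Pkg p a K dl dli Sg io kap pull N Kc)

include P

theorem nm_dl (x : H) : P.nm (dl x) = P.nm x := by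
  have h := geom_sum_mul (toE dl) (p ^ a)
  rw [P.hdl, sub_self, mul_sub, mul_one, sub_eq_zero] at h
  exact DFunLike.congr_fun h x

theorem dl_nm (x : H) : dl (P.nm x) = P.nm x := by
  have h := mul_geom_sum (toE dl) (p ^ a)
  rw [P.hdl, sub_self, sub_mul, one_mul, sub_eq_zero] at h
  exact DFunLike.congr_fun h x

theorem Sg_pow (i : ℕ) (x : H) :
    Sg (((toE dl) ^ i) x) = ((toE dl) ^ i) (Sg x) := by
  induction i generalizing x with
  | zero => rfl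
  | succ k ih =>
    rw [pow_succ]
    show Sg (((toE dl) ^ k) (dl x)) = ((toE dl) ^ k) (dl (Sg x))
    rw [ih, P.Sg_dl]

theorem nm_apply (x : H) : P.nm x = Nm (toE dl) (p ^ a) x := rfl

theorem Sg_nm (x : H) : Sg (P.nm x) = P.nm (Sg x) := by
  rw [P.nm_apply, P.nm_apply, Nm_apply, Nm_apply, map_sum]
  exact Finset.sum_congr rfl fun i _ => P.Sg_pow i x

theorem ker_nm (x : H) (hx : P.nm x = 0) : ∃ y, x = dl y - y := by
  apply P.kap_ker
  apply P.pull_inj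
  rw [P.pull_kap, map_zero]
  exact hx

theorem kap_dl (x : H) : kap (dl x) = kap x := by
  apply P.pull_inj
  rw [P.pull_kap, P.pull_kap]
  exact P.nm_dl x

theorem hKV (v : V) : p ^ K • v = 0 := by
  obtain ⟨h, rfl⟩ := P.kap_surj v
  rw [← map_nsmul, P.hK, map_zero]

theorem hI1 [Finite H] (x : H) (hx : ∃ y, Sg x - x = dl y - y) :
    ∃ y z, x = (Sg y - y) + (dl z - z) := by
  haveI : Finite V := Finite.of_surjective _ P.kap_surj
  obtain ⟨y, hy⟩ := hx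
  have h1 : N (kap x) = 0 := by
    have h2 : kap (Sg x - x) = 0 := by rw [hy, map_sub, P.kap_dl, sub_self]
    rw [map_sub, P.kap_Sg, add_sub_cancel_left] at h2
    exact h2
  obtain ⟨v, hv⟩ := exists_of_ker N P.NN (c3 P.hp P.hp2 P.hK0 P.hKV N P.DIV P.I1) _ h1
  obtain ⟨y', rfl⟩ := P.kap_surj v
  obtain ⟨z, hz⟩ := P.kap_ker (x - (Sg y' - y')) (by
    rw [map_sub, map_sub, P.kap_Sg, add_sub_cancel_left, hv, sub_self])
  exact ⟨y', z, by rw [← hz]; abel⟩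

/-- (c1) for `Kc`. -/
theorem c1 [Finite H] : Nat.card H ≤ Nat.card (H ⧸ Kc) ^ 2 := by
  haveI : Finite V := Finite.of_surjective _ P.kap_surj
  obtain ⟨d, x, y, hy, hx⟩ := exists_xy P.hp P.hK0 P.hKV N P.DIV P.I1
  choose x' hx' using fun i => P.kap_surj (x i)
  choose y' hy' using fun i => P.kap_surj (y i)
  refine card_le_sq P.hp P.hp2 P.hK (toE dl) P.hdl Kc P.Kc_dl x' ?_ y' ?_
  · intro c hc
    refine hx c (P.d _ ?_)
    rw [map_sum]
    convert hc using 2 with i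
    rw [map_zsmul, ← hx', P.pull_kap]
  · intro h
    obtain ⟨c, hc⟩ := hy (kap h)
    obtain ⟨h', hh'⟩ := P.kap_ker (h - ∑ i, c i • y' i) (by
      rw [map_sub, map_sum, hc, sub_eq_zero]
      refine Finset.sum_congr rfl fun i _ => ?_
      rw [map_zsmul, hy'])
    exact ⟨c, h', by
      show h = ∑ i, c i • y' i + (dl h' - h')
      rw [← hh']; abel⟩

/-- `K0 = io⁻¹ Kc`. -/
def K0 (_ : Pkg p a K dl dli Sg io kap pull N Kc) : AddSubgroup H := Kc.comap (io : H →+ H)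

theorem mem_K0 {x : H} : x ∈ P.K0 ↔ io x ∈ Kc := Iff.rfl

theorem K0_of (s' : H → H) (hs : ∀ x, s' x - x ∈ Kc) (hs' : ∀ x, io (s' x) = dli (s' (io x)))
    (x : H) : s' x - dl x ∈ P.K0 := by
  rw [P.mem_K0, map_sub, hs', P.io_dl, ← map_sub]
  exact P.Kc_dli _ (hs _)

theorem c2 [Finite H] : Nat.card H ≤ Nat.card (H ⧸ P.K0) ^ 2 := by
  have h1 : Kc = P.K0.map (io : H →+ H) := by
    ext z
    constructor
    · intro hz
      exact ⟨io.symm z, by rw [SetLike.mem_coe, P.mem_K0, io.apply_symm_apply]; exact hz,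
        io.apply_symm_apply z⟩
    · rintro ⟨x, hx, rfl⟩
      exact hx
  have h2 := AddSubgroup.index_map_equiv P.K0 io
  have h3 : Nat.card (H ⧸ P.K0) = Nat.card (H ⧸ Kc) := by
    have h4 : (P.K0.map (io : H →+ H)).index = P.K0.index := h2
    rw [← h1] at h4
    exact h4.symm
  rw [h3]
  exact P.c1

/-- **(H3) modulo the norm.** -/
theorem type [Finite H] (x : H) :
    ∃ y, Sg (Sg x - dl x) - (Sg x - dl x) = P.nm (Sg y - y) :=
  h3_mod_nm dl Sg P.nm P.Sg_dl P.Sg_nm P.dl_nm P.nm_dl P.ker_nm P.hI1 Kc P.K0 P.Kc_Sg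
    (P.K0_of Sg P.Kc_Sg P.io_Sg) P.c1 P.c2 x

/-- **exact commutation modulo the norm.** -/
theorem comm [Finite H] (s' : H → H) (hs : ∀ x, s' x - x ∈ Kc)
    (hs' : ∀ x, io (s' x) = dli (s' (io x))) (x : H) :
    ∃ y, s' x - Sg x = P.nm (Sg y - y) :=
  comm_mod_nm dl Sg P.nm P.Sg_nm P.dl_nm P.nm_dl P.ker_nm P.hI1 Kc P.K0 P.Kc_Sg
    (P.K0_of Sg P.Kc_Sg P.io_Sg) P.c1 P.c2 s' hs (P.K0_of s' hs hs') x

theorem w_type [Finite H] (x : H) :
    dl (Sg (Sg x - dl x) - (Sg x - dl x)) = Sg (Sg x - dl x) - (Sg x - dl x) := by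
  obtain ⟨y, hy⟩ := P.type x
  rw [hy, P.dl_nm]

theorem w_comm [Finite H] (s' : H → H) (hs : ∀ x, s' x - x ∈ Kc)
    (hs' : ∀ x, io (s' x) = dli (s' (io x))) (x : H) :
    dl (s' x - Sg x) = s' x - Sg x := by
  obtain ⟨y, hy⟩ := P.comm s' hs hs' x
  rw [hy, P.dl_nm]

theorem Kc_eq [Finite H] (x : H) (hx : x ∈ Kc) : ∃ y, x = Sg y - y :=
  (inter_main dl Sg P.nm P.Sg_nm P.dl_nm P.nm_dl P.ker_nm P.hI1 Kc P.K0 P.Kc_Sg
    (P.K0_of Sg P.Kc_Sg P.io_Sg) P.c1 P.c2).2.1 x hx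

end Pkg

end Fermat.Agent.S43.Cnt
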