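import Fermat.Agent.S43.Soc.C123
import Fermat.Agent.S43.Cnt.Inter

/-!
# S43 / Cnt / Pack : sub-assembly  `Soc` + `Cnt.Inter`  ⟹  (H3), (COMM), (r1), (rE)

`H`, `V` finite abelian groups killed by `p ^ K`; `dl` (`δ`), `kap : H ↠ V` with kernel `(δ - 1) H`, `pull (kap h) = Nm h`,
`ker Nm ⊆ (δ - 1) H`; `Sg` on `H` inducing `1 + N` on `V`; on `V`: `N N = 0`, (DIV), (I1) at exponent `p` only;
`Kc ≤ H` a `δ`-stable subgroup containing `(Σ - 1) H` with (d*) `pull v ∈ Kc → N v = 0`; `io` an automorphism of `H`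
with `io δ = δ⁻¹ io`; `K0 = io (Kc)` contains `(Σ - δ) H`.

* `tors_eq`, `ker_le_range` : `V[p^j] = p^(K-j) V`; `ker N = N V` at exponent `p ^ K`;
* `c1_gen`                  : `#H ≤ #(H / Kc)^2`;
* `Pack`                    : the hypotheses;  `Pack.h3`, `Pack.comm`, `Pack.r1`, `Pack.rE`, `Pack.Kc_eq`, `Pack.K0_eq`.
-/

set_option autoImplicit false
set_option linter.style.haveILetI false

namespace Fermat.Agent.S43.Cnt

open Finset Fermat.Agent.S43.Soc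

section VLevel

variable {V : Type*} [AddCommGroup V]

/-- `V[p^j] = p^(K-j) V`. -/
theorem tors_eq {p K : ℕ} (hK0 : 0 < K)
    (hDIV : ∀ P : V, p • P = 0 → ∃ y, P = p ^ (K - 1) • y) :
    ∀ j, j ≤ K → ∀ z : V, p ^ j • z = 0 → ∃ u, z = p ^ (K - j) • u := by
  intro j
  induction j with
  | zero =>
    intro _ z hz
    rw [pow_zero, one_smul] at hz
    exact ⟨0, by rw [hz, smul_zero]⟩
  | succ j ih =>
    intro hj z hz
    have h1 : p • (p ^ j • z) = 0 := by rw [smul_smul, ← pow_succ', hz]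
    obtain ⟨u, hu⟩ := hDIV _ h1
    have e1 : p ^ (K - 1) = p ^ j * p ^ (K - (j + 1)) := by
      rw [← pow_add]; congr 1; omega
    have h2 : p ^ j • (z - p ^ (K - (j + 1)) • u) = 0 := by
      rw [smul_sub, smul_smul, ← e1, hu, sub_self]
    obtain ⟨u', hu'⟩ := ih (by omega) _ h2
    refine ⟨u + p • u', ?_⟩
    have e2 : p ^ (K - j) = p ^ (K - (j + 1)) * p := by
      rw [← pow_succ]; congr 1; omega
    rw [smul_add, smul_smul, ← e2, ← hu']
    abel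

/-- `ker N = N V` at exponent `p ^ K` from (I1) at exponent `p`, (DIV) and `N N = 0`. -/
theorem ker_le_range {p K : ℕ} (hK0 : 0 < K) (hK : ∀ v : V, p ^ K • v = 0) (N : V →+ V)
    (hNN : ∀ v, N (N v) = 0)
    (hDIV : ∀ P : V, p • P = 0 → ∃ y, P = p ^ (K - 1) • y)
    (hI1 : ∀ P : V, p • P = 0 → N P = 0 → ∃ y, p • y = 0 ∧ P = N y)
    (x : V) (hx : N x = 0) : ∃ y, x = N y := by
  have step : ∀ x' : V, N x' = 0 → ∃ y x'', x' = N y + p • x'' ∧ N x'' = 0 := by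
    intro x' hx'
    have e0 : p * p ^ (K - 1) = p ^ K := by
      rw [← pow_succ']; congr 1; omega
    obtain ⟨y0, hy0, hP⟩ := hI1 (p ^ (K - 1) • x') (by rw [smul_smul, e0, hK])
      (by rw [map_nsmul, hx', smul_zero])
    obtain ⟨y, hy⟩ := hDIV y0 hy0
    have h1 : p ^ (K - 1) • (x' - N y) = 0 := by
      rw [smul_sub, hP, hy, map_nsmul, sub_self]
    obtain ⟨u, hu⟩ := tors_eq hK0 hDIV (K - 1) (by omega) _ h1
    have e1 : K - (K - 1) = 1 := by omega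
    rw [e1, pow_one] at hu
    have h2 : p • N u = 0 := by
      rw [← map_nsmul, ← hu, map_sub, hx', hNN, sub_self]
    obtain ⟨y1, hy1, hNu⟩ := hI1 (N u) h2 (hNN u)
    refine ⟨y, u - y1, ?_, ?_⟩
    · rw [smul_sub, hy1, sub_zero, ← hu]
      abel
    · rw [map_sub, hNu, sub_self]
  have main : ∀ j : ℕ, ∃ y x', x = N y + p ^ j • x' ∧ N x' = 0 := by
    intro j
    induction j with
    | zero => exact ⟨0, x, by rw [map_zero, zero_add, pow_zero, one_smul], hx⟩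
    | succ j ih =>
      obtain ⟨y, x', h1, h2⟩ := ih
      obtain ⟨y', x'', h3, h4⟩ := step x' h2
      refine ⟨y + p ^ j • y', x'', ?_, h4⟩
      rw [h1, h3, smul_add, smul_smul, ← pow_succ, map_add, map_nsmul]
      abel
  obtain ⟨y, x', h1, -⟩ := main K
  exact ⟨y, by rw [h1, hK, add_zero]⟩

end VLevel

variable {H V : Type*} [AddCommGroup H] [AddCommGroup V]

/-- **(c1)** for a general `δ`-stable subgroup `Kc` satisfying (d*). -/
theorem c1_gen [Finite H] {p a K : ℕ} (hp : p.Prime) (hp2 : p ≠ 2) (hK0 : 0 < K)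
    (hK : ∀ x : H, p ^ K • x = 0) (dl : AddMonoid.End H) (hdl : dl ^ (p ^ a) = 1)
    (kap : H →+ V) (hkap : Function.Surjective kap)
    (hker : ∀ h, kap h = 0 → ∃ h', h = dl h' - h')
    (pull : V →+ H) (hpull : ∀ h, pull (kap h) = Nm dl (p ^ a) h)
    (N : V →+ V)
    (hDIV : ∀ P : V, p • P = 0 → ∃ y, P = p ^ (K - 1) • y)
    (hI1 : ∀ P : V, p • P = 0 → N P = 0 → ∃ y, p • y = 0 ∧ P = N y)
    (Kc : AddSubgroup H) (hKc : ∀ x ∈ Kc, dl x ∈ Kc)
    (hd : ∀ v, pull v ∈ Kc → N v = 0) :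
    Nat.card H ≤ Nat.card (H ⧸ Kc) ^ 2 := by
  haveI : Finite V := Finite.of_surjective _ hkap
  have hKV : ∀ v : V, p ^ K • v = 0 := by
    intro v
    obtain ⟨h, rfl⟩ := hkap v
    rw [← map_nsmul, hK, map_zero]
  obtain ⟨d, x, y, hy, hx⟩ := exists_xy hp hK0 hKV N hDIV hI1
  choose x' hx' using fun i => hkap (x i)
  choose y' hy' using fun i => hkap (y i)
  refine card_le_sq hp hp2 hK dl hdl Kc hKc x' ?_ y' ?_
  · intro c hc
    refine hx c (hd _ ?_)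
    rw [map_sum]
    convert hc using 2 with i
    rw [map_zsmul, ← hx', hpull]
  · intro h
    obtain ⟨c, hc⟩ := hy (kap h)
    obtain ⟨h', hh'⟩ := hker (h - ∑ i, c i • y' i) (by
      rw [map_sub, map_sum, hc, sub_eq_zero]
      refine Finset.sum_congr rfl fun i _ => ?_
      rw [map_zsmul, hy'])
    exact ⟨c, h', by rw [← hh']; abel⟩

/-- the hypotheses of the sub-assembly (types version). -/
structure Pack (p a K : ℕ) (dl Sg : AddMonoid.End H) (kap : H →+ V) (pull : V →+ H) (N : V →+ V)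
    (Kc K0 : AddSubgroup H) : Prop where
  hp : p.Prime
  hp2 : p ≠ 2
  hK0 : 0 < K
  hK : ∀ x : H, p ^ K • x = 0
  hdl : dl ^ (p ^ a) = 1
  kap_surj : Function.Surjective kap
  kap_dl : ∀ h, kap (dl h) = kap h
  pull_kap : ∀ h, pull (kap h) = Nm dl (p ^ a) h
  ker_nm : ∀ h, Nm dl (p ^ a) h = 0 → ∃ h', h = dl h' - h'
  Sg_dl : ∀ h, Sg (dl h) = dl (Sg h)
  kap_Sg : ∀ h, kap (Sg h) = kap h + N (kap h)
  NN : ∀ v, N (N v) = 0
  DIV : ∀ P : V, p • P = 0 → ∃ y, P = p ^ (K - 1) • y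
  I1 : ∀ P : V, p • P = 0 → N P = 0 → ∃ y, p • y = 0 ∧ P = N y
  Kc_dl : ∀ x ∈ Kc, dl x ∈ Kc
  Kc_Sg : ∀ x, Sg x - x ∈ Kc
  dstar : ∀ v, pull v ∈ Kc → N v = 0
  K0_Sg : ∀ x, Sg x - dl x ∈ K0
  card_K0 : Nat.card (H ⧸ K0) = Nat.card (H ⧸ Kc)

theorem comm_pow (T dl : AddMonoid.End H) (h : ∀ x, T (dl x) = dl (T x)) (i : ℕ) (x : H) :
    T ((dl ^ i) x) = (dl ^ i) (T x) := by
  induction i generalizing x with
  | zero => rfl
  | succ i ih =>
    rw [pow_succ]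
    show T ((dl ^ i) (dl x)) = (dl ^ i) (dl (T x))
    rw [ih, h]

theorem comm_Nm (T dl : AddMonoid.End H) (h : ∀ x, T (dl x) = dl (T x)) (n : ℕ) (x : H) :
    T (Nm dl n x) = Nm dl n (T x) := by
  rw [Nm_apply, Nm_apply, map_sum]
  exact Finset.sum_congr rfl fun i _ => comm_pow T dl h i x

theorem dl_Nm (dl : AddMonoid.End H) (n : ℕ) (h : dl ^ n = 1) (x : H) : dl (Nm dl n x) = Nm dl n x := by
  have e : (dl - 1) * Nm dl n = 0 := by
    unfold Nm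
    rw [mul_geom_sum, h, sub_self]
  have e' := DFunLike.congr_fun e x
  have e'' : dl (Nm dl n x) - Nm dl n x = 0 := e'
  exact sub_eq_zero.1 e''

theorem Nm_dl (dl : AddMonoid.End H) (n : ℕ) (h : dl ^ n = 1) (x : H) : Nm dl n (dl x) = Nm dl n x := by
  have e : Nm dl n * (dl - 1) = 0 := by
    unfold Nm
    rw [geom_sum_mul, h, sub_self]
  have e' := DFunLike.congr_fun e x
  have e'' : Nm dl n (dl x - x) = 0 := e'
  rw [map_sub] at e''
  exact sub_eq_zero.1 e''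

namespace Pack

variable {p a K : ℕ} {dl Sg : AddMonoid.End H} {kap : H →+ V} {pull : V →+ H} {N : V →+ V}
  {Kc K0 : AddSubgroup H}

theorem kap_ker (P : Pack p a K dl Sg kap pull N Kc K0) (h : H) (hh : kap h = 0) :
    ∃ h', h = dl h' - h' :=
  P.ker_nm h (by rw [← P.pull_kap, hh, map_zero])

theorem hI1' (P : Pack p a K dl Sg kap pull N Kc K0) (x : H) (hx : ∃ y, Sg x - x = dl y - y) :
    ∃ y z, x = (Sg y - y) + (dl z - z) := by
  obtain ⟨y, hy⟩ := hx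
  have hKV : ∀ v : V, p ^ K • v = 0 := by
    intro v
    obtain ⟨h, rfl⟩ := P.kap_surj v
    rw [← map_nsmul, P.hK, map_zero]
  have h1 : N (kap x) = 0 := by
    have := congrArg kap hy
    rw [map_sub, map_sub, P.kap_Sg, P.kap_dl, sub_self, add_sub_cancel_left] at this
    exact this
  obtain ⟨v, hv⟩ := ker_le_range P.hK0 hKV N P.NN P.DIV P.I1 _ h1
  obtain ⟨y', rfl⟩ := P.kap_surj v
  obtain ⟨z, hz⟩ := P.kap_ker (x - (Sg y' - y')) (by
    rw [map_sub, map_sub, P.kap_Sg, add_sub_cancel_left, hv, sub_self])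
  exact ⟨y', z, by rw [← hz]; abel⟩

variable [Finite H]

theorem c1 (P : Pack p a K dl Sg kap pull N Kc K0) : Nat.card H ≤ Nat.card (H ⧸ Kc) ^ 2 :=
  c1_gen P.hp P.hp2 P.hK0 P.hK dl P.hdl kap P.kap_surj P.kap_ker pull P.pull_kap N P.DIV P.I1 Kc
    P.Kc_dl P.dstar

theorem c2 (P : Pack p a K dl Sg kap pull N Kc K0) : Nat.card H ≤ Nat.card (H ⧸ K0) ^ 2 := by
  rw [P.card_K0]; exact P.c1

/-- the exact intersection statement. -/
theorem inter (P : Pack p a K dl Sg kap pull N Kc K0) :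
    (∀ x ∈ Kc, x ∈ K0 → ∃ y, x = Nm dl (p ^ a) (Sg y - y)) ∧ (∀ x ∈ Kc, ∃ y, x = Sg y - y) ∧
      (∀ x ∈ K0, ∃ y, x = Sg y - dl y) :=
  inter_main (dl : H →+ H) (Sg : H →+ H) (Nm dl (p ^ a) : H →+ H)
    (fun x => comm_Nm Sg dl P.Sg_dl _ x) (fun x => dl_Nm dl _ P.hdl x) (fun x => Nm_dl dl _ P.hdl x)
    P.ker_nm P.hI1' Kc K0 P.Kc_Sg P.K0_Sg P.c1 P.c2

/-- **(COMM)**. -/
theorem comm (P : Pack p a K dl Sg kap pull N Kc K0) (s' : H → H) (hs : ∀ x, s' x - x ∈ Kc)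
    (hs0 : ∀ x, s' x - dl x ∈ K0) (x : H) : ∃ y, s' x - Sg x = Nm dl (p ^ a) (Sg y - y) := by
  refine P.inter.1 _ ?_ ?_
  · have e : s' x - Sg x = (s' x - x) - (Sg x - x) := by abel
    rw [e]
    exact sub_mem (hs x) (P.Kc_Sg x)
  · have e : s' x - Sg x = (s' x - dl x) - (Sg x - dl x) := by abel
    rw [e]
    exact sub_mem (hs0 x) (P.K0_Sg x)

/-- **(H3)** modulo norms. -/
theorem h3 (P : Pack p a K dl Sg kap pull N Kc K0) (x : H) :
    ∃ y, (Sg - 1) ((Sg - dl) x) = Nm dl (p ^ a) (Sg y - y) := by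
  refine P.inter.1 _ (P.Kc_Sg _) ?_
  have e : (Sg - 1) ((Sg - dl) x) = Sg (Sg x - x) - dl (Sg x - x) := by
    show Sg (Sg x - dl x) - (Sg x - dl x) = _
    rw [map_sub, map_sub, map_sub, P.Sg_dl]
    abel
  rw [e]
  exact P.K0_Sg _

omit [Finite H] in
theorem w_Nm (P : Pack p a K dl Sg kap pull N Kc K0) (x : H) : (dl - 1) (Nm dl (p ^ a) x) = 0 := by
  show dl (Nm dl (p ^ a) x) - Nm dl (p ^ a) x = 0
  rw [dl_Nm dl _ P.hdl, sub_self]

/-- **(r1)** : `ν ν = w ν` on `w H`. -/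
theorem r1 (P : Pack p a K dl Sg kap pull N Kc K0) (h : H) :
    (Sg - 1) ((Sg - 1) ((dl - 1) h)) = (dl - 1) ((Sg - 1) ((dl - 1) h)) := by
  obtain ⟨y, hy⟩ := P.h3 h
  have h1 := P.w_Nm (Sg y - y)
  rw [← hy] at h1
  have e : (dl - 1) ((Sg - 1) ((Sg - dl) h))
      = (Sg - 1) ((Sg - 1) ((dl - 1) h)) - (dl - 1) ((Sg - 1) ((dl - 1) h)) := by
    show dl (Sg (Sg h - dl h) - (Sg h - dl h)) - (Sg (Sg h - dl h) - (Sg h - dl h))
      = (Sg (Sg (dl h - h) - (dl h - h)) - (Sg (dl h - h) - (dl h - h)))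
        - (dl (Sg (dl h - h) - (dl h - h)) - (Sg (dl h - h) - (dl h - h)))
    simp only [map_sub, P.Sg_dl]
    abel
  rw [e] at h1
  exact sub_eq_zero.1 h1

/-- **(rE)** : `Φ` and `ν` commute on `w H`. -/
theorem rE (P : Pack p a K dl Sg kap pull N Kc K0) (Ph Phi : AddMonoid.End H)
    (hPP : ∀ x, Phi (Ph x) = x) (hPd : ∀ x, Ph (dl x) = dl (Ph x))
    (hs : ∀ x, Ph (Sg (Phi x)) - x ∈ Kc) (hs0 : ∀ x, Ph (Sg (Phi x)) - dl x ∈ K0) (h : H) :
    (Ph * (Sg - 1) - (Sg - 1) * Ph) ((dl - 1) h) = 0 := by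
  obtain ⟨y, hy⟩ := P.comm (fun x => Ph (Sg (Phi x))) hs hs0 (Ph h)
  have h1 := P.w_Nm (Sg y - y)
  rw [← hy] at h1
  simp only [hPP] at h1
  have e : (Ph * (Sg - 1) - (Sg - 1) * Ph) ((dl - 1) h) = (dl - 1) (Ph (Sg h) - Sg (Ph h)) := by
    show Ph (Sg (dl h - h) - (dl h - h)) - (Sg (Ph (dl h - h)) - Ph (dl h - h))
      = dl (Ph (Sg h) - Sg (Ph h)) - (Ph (Sg h) - Sg (Ph h))
    simp only [map_sub, P.Sg_dl, hPd]
    abel
  rw [e]
  exact h1

end Pack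

end Fermat.Agent.S43.Cnt
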