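import Fermat.Agent.S43.Cnt.Main

/-!
# S43 / Cnt / Rel : COUNT in RELATIVE, ELEMENTWISE form  (Mathlib only)

Ambient groups `X` (think `KK = B1.Kum ℚ̄ F1(N) m`), `Y` (think `ES.Kum N m`), subgroups `HH ≤ X`, `VV ≤ Y`.
All hypotheses are elementwise on `HH`, `VV` (structure `RelHyp`).  Conclusions:

* `RelHyp.L4` : `z := Sg (Sg y - dl y) - (Sg y - dl y)` satisfies `dl z = z`  (`y ∈ HH`);
* `RelHyp.comm` : `dl (s' y - Sg y) = s' y - Sg y` for every `s'` of "inertia type";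
* `RelHyp.L5` : `c := Ph (Sg y) - Sg (Ph y)` satisfies `dl c = c`.
-/

set_option autoImplicit false
set_option linter.style.haveILetI false

namespace Fermat.Agent.S43.Cnt

open Fermat.Agent.S43.Soc Finset

variable {X Y : Type*} [AddCommGroup X] [AddCommGroup Y]

/-- restriction of an additive endomorphism to a stable subgroup. -/
def resH (HH : AddSubgroup X) (f : X →+ X) (hf : ∀ y ∈ HH, f y ∈ HH) : HH →+ HH :=
  (f.comp HH.subtype).codRestrict HH (fun x => hf x x.2)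

theorem resH_coe (HH : AddSubgroup X) (f : X →+ X) (hf : ∀ y ∈ HH, f y ∈ HH) (y : HH) :
    ((resH HH f hf y : HH) : X) = f y := rfl

theorem toE_resH_pow_coe (HH : AddSubgroup X) (f : X →+ X) (hf : ∀ y ∈ HH, f y ∈ HH) (i : ℕ)
    (y : HH) : (((toE (resH HH f hf) ^ i) y : HH) : X) = f^[i] y := by
  induction i generalizing y with
  | zero => rfl
  | succ k ih =>
    rw [pow_succ, Function.iterate_succ_apply]
    show (((toE (resH HH f hf) ^ k) (resH HH f hf y) : HH) : X) = f^[k] (f y)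
    rw [ih]
    rfl

theorem iterate_mem (HH : AddSubgroup X) (f : X →+ X) (hf : ∀ y ∈ HH, f y ∈ HH) (i : ℕ) {y : X}
    (hy : y ∈ HH) : f^[i] y ∈ HH := by
  induction i generalizing y with
  | zero => exact hy
  | succ k ih =>
    rw [Function.iterate_succ_apply]
    exact ih (hf y hy)

/-- the iterate as an additive map. -/
def itH (f : X →+ X) (i : ℕ) : X →+ X := (toE f) ^ i

theorem itH_apply (f : X →+ X) (i : ℕ) (x : X) : itH f i x = f^[i] x := by
  induction i generalizing x with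
  | zero => rfl
  | succ k ih =>
    rw [Function.iterate_succ_apply, ← ih]
    unfold itH
    rw [pow_succ]
    rfl

/-- the hypotheses, elementwise. -/
structure RelHyp (HH : AddSubgroup X) (VV : AddSubgroup Y) (p a K : ℕ) (dl Sg io nm : X →+ X)
    (pull : Y →+ X) (SgV : Y →+ Y) (Koo : AddSubgroup X) : Prop where
  hp : p.Prime
  hp2 : p ≠ 2
  hK0 : 0 < K
  dl_mem : ∀ y ∈ HH, dl y ∈ HH
  Sg_mem : ∀ y ∈ HH, Sg y ∈ HH
  io_mem : ∀ y ∈ HH, io y ∈ HH
  SgV_mem : ∀ v ∈ VV, SgV v ∈ VV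
  pull_mem : ∀ v ∈ VV, pull v ∈ HH
  hK : ∀ y ∈ HH, p ^ K • y = 0
  dl_pow : ∀ y ∈ HH, dl^[p ^ a] y = y
  nm_eq : ∀ y ∈ HH, nm y = ∑ i ∈ range (p ^ a), dl^[i] y
  nm_pull : ∀ y ∈ HH, ∃ v ∈ VV, pull v = nm y
  pull_nm : ∀ v ∈ VV, ∃ y ∈ HH, pull v = nm y
  ker_nm : ∀ y ∈ HH, nm y = 0 → ∃ y' ∈ HH, y = dl y' - y'
  pull_inj : ∀ v ∈ VV, pull v = 0 → v = 0
  DIV : ∀ P ∈ VV, p • P = 0 → ∃ y ∈ VV, P = p ^ (K - 1) • y
  I1 : ∀ P ∈ VV, p • P = 0 → SgV P = P → ∃ y ∈ VV, p • y = 0 ∧ P = SgV y - y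
  NN : ∀ v ∈ VV, SgV (SgV v - v) = SgV v - v
  Sg_dl : ∀ y ∈ HH, Sg (dl y) = dl (Sg y)
  pull_Sg : ∀ v ∈ VV, pull (SgV v) = Sg (pull v)
  io_inj : ∀ y ∈ HH, io y = 0 → y = 0
  io_dl : ∀ y ∈ HH, dl (io (dl y)) = io y
  io_Sg : ∀ y ∈ HH, dl (io (Sg y)) = Sg (io y)
  Koo_dl : ∀ x ∈ Koo, dl x ∈ Koo
  S1 : ∀ y ∈ HH, Sg y - y ∈ Koo
  d : ∀ v ∈ VV, pull v ∈ Koo → SgV v = v

namespace RelHyp

variable {HH : AddSubgroup X} {VV : AddSubgroup Y} {p a K : ℕ} {dl Sg io nm : X →+ X}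
  {pull : Y →+ X} {SgV : Y →+ Y} {Koo : AddSubgroup X}

variable (R : RelHyp HH VV p a K dl Sg io nm pull SgV Koo)

include R

theorem pa_pos : 0 < p ^ a := pow_pos R.hp.pos a

theorem dli_dl (y : X) (hy : y ∈ HH) : dl^[p ^ a - 1] (dl y) = y := by
  rw [← Function.iterate_succ_apply, Nat.succ_eq_add_one, Nat.sub_add_cancel R.pa_pos]
  exact R.dl_pow y hy

theorem dl_dli (y : X) (hy : y ∈ HH) : dl (dl^[p ^ a - 1] y) = y := by
  have h := Function.iterate_succ_apply' dl (p ^ a - 1) y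
  rw [Nat.succ_eq_add_one, Nat.sub_add_cancel R.pa_pos] at h
  rw [← h]
  exact R.dl_pow y hy

theorem nm_mem (y : X) (hy : y ∈ HH) : nm y ∈ HH := by
  rw [R.nm_eq y hy]
  exact AddSubgroup.sum_mem _ fun i _ => iterate_mem HH dl R.dl_mem i hy

/-- `kap` by choice. -/
noncomputable def kapF (y : HH) : VV :=
  ⟨(R.nm_pull y y.2).choose, (R.nm_pull y y.2).choose_spec.1⟩

theorem pull_kapF (y : HH) : pull (R.kapF y : Y) = nm y := (R.nm_pull y y.2).choose_spec.2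

theorem pull_inj' {v v' : VV} (h : pull (v : Y) = pull (v' : Y)) : v = v' := by
  have h1 : ((v - v' : VV) : Y) = 0 := R.pull_inj _ (v - v').2 (by
    rw [AddSubgroup.coe_sub, map_sub, h, sub_self])
  exact sub_eq_zero.1 (Subtype.ext h1)

noncomputable def kap : HH →+ VV :=
  AddMonoidHom.mk' R.kapF (fun y z => by
    apply R.pull_inj'
    rw [AddSubgroup.coe_add, map_add, R.pull_kapF, R.pull_kapF, R.pull_kapF, AddSubgroup.coe_add,
      map_add])

theorem pull_kap (y : HH) : pull (R.kap y : Y) = nm y := R.pull_kapF y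

/-- `pull` restricted. -/
def pullH : VV →+ HH := (pull.comp VV.subtype).codRestrict HH (fun v => R.pull_mem v v.2)

theorem pullH_coe (v : VV) : ((R.pullH v : HH) : X) = pull v := rfl

/-- `N = SgV - 1` restricted. -/
def NV : VV →+ VV :=
  ((SgV - AddMonoidHom.id Y).comp VV.subtype).codRestrict VV
    (fun v => VV.sub_mem (R.SgV_mem v v.2) v.2)

theorem NV_coe (v : VV) : ((R.NV v : VV) : Y) = SgV v - v := rfl

/-- `io` restricted, as an equivalence. -/
noncomputable def ioE [Finite HH] : HH ≃+ HH :=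
  AddEquiv.ofBijective (resH HH io R.io_mem) (by
    apply Finite.injective_iff_bijective.1
    rw [injective_iff_map_eq_zero]
    intro y hy
    exact Subtype.ext (R.io_inj y y.2 (congrArg Subtype.val hy)))

theorem ioE_coe [Finite HH] (y : HH) : ((R.ioE y : HH) : X) = io y := rfl

theorem Koo_it (i : ℕ) {x : X} (hx : x ∈ Koo) : dl^[i] x ∈ Koo := iterate_mem Koo dl R.Koo_dl i hx

theorem it_mem (i : ℕ) : ∀ y ∈ HH, itH dl i y ∈ HH := fun y hy => by
  rw [itH_apply]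
  exact iterate_mem HH dl R.dl_mem i hy

/-- the package on the subtypes. -/
theorem pkg [Finite HH] :
    Pkg p a K (resH HH dl R.dl_mem) (resH HH (itH dl (p ^ a - 1)) (R.it_mem _))
      (resH HH Sg R.Sg_mem) R.ioE R.kap R.pullH R.NV (Koo.comap HH.subtype) where
  hp := R.hp
  hp2 := R.hp2
  hK0 := R.hK0
  hK := fun x => Subtype.ext (by
    rw [AddSubgroup.coe_nsmul]
    exact R.hK x x.2)
  hdl := by
    ext x
    rw [toE_resH_pow_coe]
    exact R.dl_pow x x.2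
  dli_dl := fun x => Subtype.ext (by
    rw [resH_coe, resH_coe, itH_apply]
    exact R.dli_dl x x.2)
  dl_dli := fun x => Subtype.ext (by
    rw [resH_coe, resH_coe, itH_apply]
    exact R.dl_dli x x.2)
  kap_surj := fun v => by
    obtain ⟨y, hy, h⟩ := R.pull_nm v v.2
    exact ⟨⟨y, hy⟩, R.pull_inj' (by rw [R.pull_kap, h])⟩
  kap_ker := fun h hh => by
    obtain ⟨y', hy', h'⟩ := R.ker_nm h h.2 (by
      rw [← R.pull_kap, hh]
      exact map_zero _)
    exact ⟨⟨y', hy'⟩, Subtype.ext h'⟩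
  pull_kap := fun h => Subtype.ext (by
    rw [R.pullH_coe, R.pull_kap, R.nm_eq h h.2, Nm_apply, AddSubgroup.val_finsetSum]
    exact Finset.sum_congr rfl fun i _ => (toE_resH_pow_coe HH dl R.dl_mem i h).symm)
  pull_inj := fun v v' h => R.pull_inj' (congrArg Subtype.val h)
  DIV := fun P hP => by
    obtain ⟨y, hy, h⟩ := R.DIV P P.2 (by
      have := congrArg Subtype.val hP
      rwa [AddSubgroup.coe_nsmul] at this)
    exact ⟨⟨y, hy⟩, Subtype.ext (by rw [AddSubgroup.coe_nsmul]; exact h)⟩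
  I1 := fun P hP hN => by
    obtain ⟨y, hy, h1, h2⟩ := R.I1 P P.2 (by
      have := congrArg Subtype.val hP
      rwa [AddSubgroup.coe_nsmul] at this) (by
      have := congrArg Subtype.val hN
      rw [R.NV_coe] at this
      exact sub_eq_zero.1 this)
    exact ⟨⟨y, hy⟩, Subtype.ext (by rw [AddSubgroup.coe_nsmul]; exact h1), Subtype.ext h2⟩
  NN := fun v => Subtype.ext (by
    rw [R.NV_coe, R.NV_coe, R.NN v v.2, sub_self]
    rfl)
  Sg_dl := fun x => Subtype.ext (R.Sg_dl x x.2)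
  kap_Sg := fun x => by
    apply R.pull_inj'
    rw [AddSubgroup.coe_add, map_add, R.NV_coe, map_sub, R.pull_Sg _ (R.kap x).2, R.pull_kap,
      R.pull_kap, resH_coe, add_sub_cancel]
    -- `nm (Sg x) = Sg (nm x)`
    rw [R.nm_eq _ (R.Sg_mem x x.2), R.nm_eq x x.2, map_sum]
    refine Finset.sum_congr rfl fun i _ => ?_
    have key : ∀ (i : ℕ) (y : X), y ∈ HH → dl^[i] (Sg y) = Sg (dl^[i] y) := by
      intro i
      induction i with
      | zero => intro y _; rfl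
      | succ k ih =>
        intro y hy
        rw [Function.iterate_succ_apply, Function.iterate_succ_apply, ← R.Sg_dl y hy,
          ih _ (R.dl_mem y hy)]
    exact key i x x.2
  io_Sg := fun x => Subtype.ext (by
    rw [R.ioE_coe, resH_coe, resH_coe, resH_coe, R.ioE_coe, itH_apply, ← R.io_Sg x x.2]
    exact (R.dli_dl _ (R.io_mem _ (R.Sg_mem x x.2))).symm)
  io_dl := fun x => Subtype.ext (by
    rw [R.ioE_coe, resH_coe, resH_coe, R.ioE_coe, itH_apply, ← R.io_dl x x.2]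
    exact (R.dli_dl _ (R.io_mem _ (R.dl_mem x x.2))).symm)
  Kc_dl := fun x hx => R.Koo_dl x hx
  Kc_dli := fun x hx => by
    show itH dl (p ^ a - 1) x ∈ Koo
    rw [itH_apply]
    exact R.Koo_it _ hx
  Kc_Sg := fun x => R.S1 x x.2
  d := fun v hv => Subtype.ext (by
    rw [R.NV_coe, R.d v v.2 hv, sub_self]
    rfl)

/-- **(L4)** -/
theorem L4 [Finite HH] (y : X) (hy : y ∈ HH) :
    dl (Sg (Sg y - dl y) - (Sg y - dl y)) = Sg (Sg y - dl y) - (Sg y - dl y) :=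
  congrArg Subtype.val (R.pkg.w_type ⟨y, hy⟩)

/-- commutation for an operator of inertia type. -/
theorem comm [Finite HH] (s' : X → X) (hs : ∀ y ∈ HH, s' y ∈ HH) (hs1 : ∀ y ∈ HH, s' y - y ∈ Koo)
    (hio : ∀ y ∈ HH, dl (io (s' y)) = s' (io y)) (y : X) (hy : y ∈ HH) :
    dl (s' y - Sg y) = s' y - Sg y :=
  congrArg Subtype.val (R.pkg.w_comm (fun x => ⟨s' x, hs x x.2⟩) (fun x => hs1 x x.2)
    (fun x => Subtype.ext (by
      rw [R.ioE_coe, resH_coe, itH_apply]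
      show io (s' x) = dl^[p ^ a - 1] (s' (io x))
      rw [← hio x x.2]
      exact (R.dli_dl _ (R.io_mem _ (hs x x.2))).symm)) ⟨y, hy⟩)

/-- **(L5)** : `s' = Ph Sg Ph⁻¹`. -/
theorem L5 [Finite HH] (Ph Phi : X → X) (hPh : ∀ y ∈ HH, Ph y ∈ HH) (hPhi : ∀ y ∈ HH, Phi y ∈ HH)
    (hinv : ∀ y ∈ HH, Phi (Ph y) = y)
    (hs1 : ∀ y ∈ HH, Ph (Sg (Phi y)) - y ∈ Koo)
    (hio : ∀ y ∈ HH, dl (io (Ph (Sg (Phi y)))) = Ph (Sg (Phi (io y)))) (y : X) (hy : y ∈ HH) :
    dl (Ph (Sg y) - Sg (Ph y)) = Ph (Sg y) - Sg (Ph y) := by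
  have h := R.comm (fun x => Ph (Sg (Phi x))) (fun x hx => hPh _ (R.Sg_mem _ (hPhi x hx))) hs1 hio
    (Ph y) (hPh y hy)
  simp only [hinv y hy] at h
  exact h

end RelHyp

end Fermat.Agent.S43.Cnt
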